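/-
GATE-E / RISK-4 PNEW-STAGE, leaf R4-G (g0-c), second seat (helper19): **the dictionary between
the two spellings of the `𝔪`-primary part of `𝒪 ⊗ Lam N`.**

* GATE-B / `LocBridge` vocabulary (helper74, helper4 `Hf0Hom`, helper15 `PairBase`): symbols `σ`,
  `pr : σ → ℕ`, the action `actLam 𝒪 N pr hpr : MvPolynomial σ 𝒪 →ₐ End (𝒪 ⊗ Lam N)`, a maximal
  ideal `𝔪 = ker lam'`, the primary part `locSub (actLam …) 𝔪` (`GB/B8/LevelStage`);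
* R4-I vocabulary (helper37 `PolyAct`): `PAlg 𝒪 Z` acting on every `𝒪 ⊗ Lam N`, the maximal
  ideal `mP 𝒪 Z lam`, the primary part `locPart (mP 𝒪 Z lam) (𝒪 ⊗ Lam N)` (`GB/B3/Loc`).

Contents:
* `isLoc_iff_mem_locPart_of_surj` (generic): a surjective `ρ : 𝕋 → 𝕋'` intertwining the action of
  `𝕋` with a `𝕋'`-module structure, `𝔪 = 𝔪'.comap ρ` ⟹ `IsLoc act 𝔪 x ↔ x ∈ locPart 𝔪' X`;
* `symHom pr hpr hZ : MvPolynomial σ 𝒪 →ₐ[𝒪] PAlg 𝒪 Z` (`X s ↦ x_{pr s}`), `symHom_X`,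
  `symHom_surjective` (every prime of `Z` is a symbol), `actLam_eq_smulP`;
* `ker_eq_comap_mP` : `ker lam' = (mP 𝒪 Z lam).comap symHom` when `lam' (X s) = lam (pr s) mod 𝔪_𝒪`;
* **`mem_locSub_actLam_iff`**, **`locSub_actLam_eq`** : the two primary parts coincide;
* `mem_locSub_inf_KNew_iff` : the `p`-new primary parts coincide.
-/
import Mathlib
import Fermat.Agent.GE9.PNew.Inst.KNew
import Fermat.Agent.GE9.Eta.Base.LocBridge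

set_option autoImplicit false
set_option linter.unusedSectionVars false
set_option linter.unusedVariables false
set_option linter.style.haveILetI false

noncomputable section

namespace Fermat.Agent.GE8.RaiseP.BaseKer.LocDict

open TensorProduct IsLocalRing Function
open Fermat.Agent.GJ.J2.Lat Fermat.Agent.GB.B3.Loc Fermat.Agent.GB.B3.RealLevel
open Fermat.Agent.GB.B8.LevelStage Fermat.Agent.GB.B3.HeckeAct
open Fermat.Agent.GE9.Eta.Base.LocBridge Fermat.Agent.GE9.PNew.Inst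

/-! ### generic: change of Hecke algebra along a surjection -/

section Generic

variable {𝒪 : Type*} [CommRing 𝒪] {𝕋 : Type*} [CommRing 𝕋] [Algebra 𝒪 𝕋]
  {𝕋' : Type*} [CommRing 𝕋'] {X : Type*} [AddCommGroup X] [Module 𝒪 X] [Module 𝕋' X]

/-- **change of Hecke algebra**: if `ρ : 𝕋 → 𝕋'` is onto, `act t x = ρ t • x` and
`𝔪 = 𝔪'.comap ρ`, then the `𝔪`-primary elements for `act` are the elements of `locPart 𝔪' X`. -/
theorem isLoc_iff_mem_locPart_of_surj (act : 𝕋 →ₐ[𝒪] Module.End 𝒪 X) (ρ : 𝕋 →+* 𝕋')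
    (hρ : Surjective ρ) (hact : ∀ t x, act t x = ρ t • x) (𝔪' : Ideal 𝕋') [𝔪'.IsPrime]
    (𝔪 : Ideal 𝕋) (h𝔪 : 𝔪 = 𝔪'.comap ρ) (x : X) :
    IsLoc act 𝔪 x ↔ x ∈ locPart 𝔪' X := by
  rw [mem_locPart]
  constructor
  · intro h s' hs'
    obtain ⟨s, rfl⟩ := hρ s'
    have hs : s ∉ 𝔪 := by
      rw [h𝔪, Ideal.mem_comap]
      exact hs'
    obtain ⟨y, hy⟩ := h s hs
    exact ⟨y, by rw [← hact, hy]⟩
  · intro h s hs
    have hs' : ρ s ∉ 𝔪' := by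
      rw [h𝔪, Ideal.mem_comap] at hs
      exact hs
    obtain ⟨y, hy⟩ := h (ρ s) hs'
    exact ⟨y, by rw [hact, hy]⟩

end Generic

/-! ### the symbols of `LocBridge` inside the polynomial Hecke algebra of `PolyAct` -/

section Sym

variable (𝒪 : Type) [CommRing 𝒪] {σ : Type} (pr : σ → ℕ) (hpr : ∀ s, (pr s).Prime)
  {Z : Set ℕ} (hZ : ∀ s, pr s ∈ Z)

/-- the index map `σ → PIdx Z`. -/
def symIdx (s : σ) : PIdx Z := ⟨⟨pr s, hpr s⟩, hZ s⟩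

/-- **the symbols as elements of the polynomial Hecke algebra**: `X s ↦ x_{pr s}`. -/
def symHom : MvPolynomial σ 𝒪 →ₐ[𝒪] PAlg 𝒪 Z :=
  ((toPoly 𝒪 Z).symm : MvPolynomial (PIdx Z) 𝒪 →ₐ[𝒪] PAlg 𝒪 Z).comp
    (MvPolynomial.rename (symIdx pr hpr hZ))

@[simp] theorem symHom_X (s : σ) :
    symHom 𝒪 pr hpr hZ (MvPolynomial.X s) = xP 𝒪 Z ⟨pr s, hpr s⟩ (hZ s) := by
  show (toPoly 𝒪 Z).symm (MvPolynomial.rename (symIdx pr hpr hZ) (MvPolynomial.X s)) = _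
  rw [MvPolynomial.rename_X]
  rfl

/-- every prime of `Z` is a symbol ⟹ the symbols generate. -/
theorem symHom_surjective (hall : ∀ l : Nat.Primes, (l : ℕ) ∈ Z → ∃ s, pr s = (l : ℕ)) :
    Surjective (symHom 𝒪 pr hpr hZ) := by
  have hidx : Surjective (symIdx pr hpr hZ : σ → PIdx Z) := by
    rintro ⟨l, hl⟩
    obtain ⟨s, hs⟩ := hall l hl
    refine ⟨s, ?_⟩
    apply Subtype.ext
    apply Subtype.ext
    exact hs
  intro a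
  obtain ⟨t, ht⟩ := MvPolynomial.rename_surjective (R := 𝒪) _ hidx (toPoly 𝒪 Z a)
  refine ⟨t, ?_⟩
  show (toPoly 𝒪 Z).symm (MvPolynomial.rename (symIdx pr hpr hZ) t) = a
  rw [ht, AlgEquiv.symm_apply_apply]

variable {𝒪}

/-- **the two actions agree**: `actLam t x = symHom t • x`. -/
theorem actLam_eq_smulP (N : ℕ) [NeZero N] (t : MvPolynomial σ 𝒪) (x : 𝒪 ⊗[ℤ] Lam N) :
    actLam 𝒪 N pr hpr t x = symHom 𝒪 pr hpr hZ t • x := by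
  have h : actLam 𝒪 N pr hpr = (actP 𝒪 Z N).comp (symHom 𝒪 pr hpr hZ) := by
    refine MvPolynomial.algHom_ext fun s => ?_
    rw [actLam_X, AlgHom.comp_apply, symHom_X]
    refine LinearMap.ext fun y => ?_
    exact (xP_smul (𝒪 := 𝒪) (Z := Z) (M := N) (⟨pr s, hpr s⟩ : Nat.Primes) (hZ s) y).symm
  rw [h]
  rfl

variable [IsLocalRing 𝒪] (lam : Nat.Primes → 𝒪)

/-- **the two maximal ideals correspond**: a character `lam'` of the symbol algebra with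
`lam' (X s) = lam (pr s) mod 𝔪_𝒪` has kernel `(mP 𝒪 Z lam).comap symHom`. -/
theorem ker_eq_comap_mP (lam' : MvPolynomial σ 𝒪 →ₐ[𝒪] ResidueField 𝒪)
    (hlam : ∀ s, lam' (MvPolynomial.X s) = residue 𝒪 (lam ⟨pr s, hpr s⟩)) :
    RingHom.ker (lam' : MvPolynomial σ 𝒪 →+* ResidueField 𝒪)
      = (mP 𝒪 Z lam).comap (symHom 𝒪 pr hpr hZ : MvPolynomial σ 𝒪 →+* PAlg 𝒪 Z) := by
  have h : (lam' : MvPolynomial σ 𝒪 →+* ResidueField 𝒪)
      = ((residue 𝒪).comp (evP 𝒪 Z lam : PAlg 𝒪 Z →+* 𝒪)).comp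
          (symHom 𝒪 pr hpr hZ : MvPolynomial σ 𝒪 →+* PAlg 𝒪 Z) := by
    refine MvPolynomial.ringHom_ext (fun c => ?_) (fun s => ?_)
    · rw [RingHom.coe_coe, ← MvPolynomial.algebraMap_eq, AlgHom.commutes, RingHom.comp_apply,
        RingHom.comp_apply, RingHom.coe_coe, RingHom.coe_coe, AlgHom.commutes, AlgHom.commutes]
      rfl
    · rw [RingHom.coe_coe, hlam, RingHom.comp_apply, RingHom.comp_apply, RingHom.coe_coe,
        RingHom.coe_coe, symHom_X]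
      exact congrArg (residue 𝒪)
        (evP_xP 𝒪 Z lam (⟨pr s, hpr s⟩ : Nat.Primes) (hZ s)).symm
  ext t
  rw [RingHom.mem_ker, Ideal.mem_comap, mP, RingHom.mem_ker, h]
  rfl

/-- **the two primary parts coincide**, pointwise form. -/
theorem mem_locSub_actLam_iff (N : ℕ) [NeZero N]
    (hall : ∀ l : Nat.Primes, (l : ℕ) ∈ Z → ∃ s, pr s = (l : ℕ))
    (𝔪 : Ideal (MvPolynomial σ 𝒪))
    (h𝔪 : 𝔪 = (mP 𝒪 Z lam).comap (symHom 𝒪 pr hpr hZ : MvPolynomial σ 𝒪 →+* PAlg 𝒪 Z))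
    (x : 𝒪 ⊗[ℤ] Lam N) :
    x ∈ locSub (actLam 𝒪 N pr hpr) 𝔪 ↔ x ∈ locPart (mP 𝒪 Z lam) (𝒪 ⊗[ℤ] Lam N) := by
  rw [mem_locSub]
  exact isLoc_iff_mem_locPart_of_surj (actLam 𝒪 N pr hpr)
    (symHom 𝒪 pr hpr hZ : MvPolynomial σ 𝒪 →+* PAlg 𝒪 Z) (symHom_surjective 𝒪 pr hpr hZ hall)
    (fun t y => actLam_eq_smulP pr hpr hZ N t y) (mP 𝒪 Z lam) 𝔪 h𝔪 x

/-- **the two primary parts coincide.** -/
theorem locSub_actLam_eq (N : ℕ) [NeZero N]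
    (hall : ∀ l : Nat.Primes, (l : ℕ) ∈ Z → ∃ s, pr s = (l : ℕ))
    (𝔪 : Ideal (MvPolynomial σ 𝒪))
    (h𝔪 : 𝔪 = (mP 𝒪 Z lam).comap (symHom 𝒪 pr hpr hZ : MvPolynomial σ 𝒪 →+* PAlg 𝒪 Z)) :
    locSub (actLam 𝒪 N pr hpr) 𝔪
      = (locPart (mP 𝒪 Z lam) (𝒪 ⊗[ℤ] Lam N)).restrictScalars 𝒪 := by
  ext x
  rw [Submodule.restrictScalars_mem]
  exact mem_locSub_actLam_iff pr hpr hZ lam N hall 𝔪 h𝔪 x

/-- **the `p`-new primary parts coincide**: the target of `Abs.kerEquiv` at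
`S := locSub (actLam 𝒪 (M * p) pr hpr) 𝔪`, `β₁ β₂ := bp1O, bp2O` is `KNew ⊓ locPart`. -/
theorem mem_locSub_inf_KNew_iff {M p : ℕ} [Fact p.Prime] [NeZero M] [NeZero (M * p)]
    (hpM : ¬ p ∣ M) (hall : ∀ l : Nat.Primes, (l : ℕ) ∈ Z → ∃ s, pr s = (l : ℕ))
    (𝔪 : Ideal (MvPolynomial σ 𝒪))
    (h𝔪 : 𝔪 = (mP 𝒪 Z lam).comap (symHom 𝒪 pr hpr hZ : MvPolynomial σ 𝒪 →+* PAlg 𝒪 Z))
    (x : 𝒪 ⊗[ℤ] Lam (M * p)) :
    x ∈ locSub (actLam 𝒪 (M * p) pr hpr) 𝔪 ⊓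
        (LinearMap.ker (bp1O hpM 𝒪) ⊓ LinearMap.ker (bp2O hpM 𝒪))
      ↔ x ∈ KNew hpM 𝒪 ∧ x ∈ locPart (mP 𝒪 Z lam) (𝒪 ⊗[ℤ] Lam (M * p)) := by
  rw [Submodule.mem_inf, mem_locSub_actLam_iff pr hpr hZ lam (M * p) hall 𝔪 h𝔪 x, KNew]
  exact and_comm

end Sym

end Fermat.Agent.GE8.RaiseP.BaseKer.LocDict
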