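/-
GATE-E / RISK-4 PNEW-STAGE, leaf R4-G (g0-b)+(g0-c) (helper19; claims row GE8-PNEW-R4G-G0BC):
**the formal half of the seam between the two models of the `p`-new base module.**

The Taylor–Wiles levels of the `p`-new base (`GE8/RaiseP/BaseB`, `WireNew`) live on
`ker (f₁.prod f₂)` inside the `Hom`-model (`locSub (actN …) 𝔪 ⊂ Hom(Γ₀(M p), 𝒪)`); the pairing /
`η` fields and the carrier `T'` of the base record live on the `Lam`-model (`𝒪 ⊗ Lam (M p)`,
`K_∅ = ` local part of `KNew`).  This file is Mathlib-only: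

* `subEquiv` : an equivalence `e : MF ≃ₗ S` onto a submodule `S ≤ X` restricts to
  `K ≃ₗ ↥(S ⊓ K')` as soon as `y ∈ K ↔ e y ∈ K'`; `coe_subEquiv`, `coe_subEquiv_symm`;
* `eq_zero_iff_of_square` : the membership criterion from a commutative square through injective
  comparison maps;
* `kerEquiv` : the case `K = ker (f₁.prod f₂)`, `K' = ker β₁ ⊓ ker β₂`; `coe_kerEquiv`,
  `kerEquiv_comm` (equivariance is inherited);
* `transportHom`, `transportModule` : the `T`-module structure on `K` transported along an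
  `𝒪`-linear equivalence `e : K ≃ₗ[𝒪] L` from a `T`-module `L`; `transport_smul`,
  `transport_isScalarTower`, `transportEquiv : K ≃ₗ[T] L`, `transport_faithful`,
  `transport_smul_eq_of_comm` (`e (A y) = t • e y` for all `y` ⟹ `t • y = A y`).
-/
import Mathlib

set_option autoImplicit false
set_option linter.unusedSectionVars false
set_option linter.unusedVariables false
set_option linter.style.haveILetI false

namespace Fermat.Agent.GE8.RaiseP.BaseKer.Abs

open Function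

/-! ### restriction of an equivalence to corresponding submodules -/

section SubEquiv

variable {𝒪 : Type*} [CommRing 𝒪]
  {MF X : Type*} [AddCommGroup MF] [Module 𝒪 MF] [AddCommGroup X] [Module 𝒪 X]

/-- **restriction of an equivalence onto a submodule**: `e : MF ≃ₗ S`, `S ≤ X`, and
`y ∈ K ↔ e y ∈ K'` give `K ≃ₗ ↥(S ⊓ K')`. -/
noncomputable def subEquiv (S : Submodule 𝒪 X) (e : MF ≃ₗ[𝒪] S) (K : Submodule 𝒪 MF)
    (K' : Submodule 𝒪 X) (h : ∀ y : MF, y ∈ K ↔ ((e y : S) : X) ∈ K') :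
    K ≃ₗ[𝒪] ↥(S ⊓ K') where
  toFun y := ⟨((e (y : MF) : S) : X), ⟨(e (y : MF)).2, (h y).1 y.2⟩⟩
  map_add' y z := by
    apply Subtype.ext
    show ((e ((y : MF) + (z : MF)) : S) : X) = ((e (y : MF) : S) : X) + ((e (z : MF) : S) : X)
    rw [map_add]
    rfl
  map_smul' c y := by
    apply Subtype.ext
    show ((e (c • (y : MF)) : S) : X) = c • ((e (y : MF) : S) : X)
    rw [map_smul]
    rfl
  invFun x := ⟨e.symm ⟨(x : X), x.2.1⟩, (h _).2 (by rw [e.apply_symm_apply]; exact x.2.2)⟩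
  left_inv y := by
    apply Subtype.ext
    show e.symm ⟨((e (y : MF) : S) : X), _⟩ = (y : MF)
    have : (⟨((e (y : MF) : S) : X), (e (y : MF)).2⟩ : S) = e (y : MF) := rfl
    rw [this, e.symm_apply_apply]
  right_inv x := by
    apply Subtype.ext
    show ((e (e.symm ⟨(x : X), x.2.1⟩) : S) : X) = (x : X)
    rw [e.apply_symm_apply]

@[simp] theorem coe_subEquiv (S : Submodule 𝒪 X) (e : MF ≃ₗ[𝒪] S) (K : Submodule 𝒪 MF)
    (K' : Submodule 𝒪 X) (h : ∀ y : MF, y ∈ K ↔ ((e y : S) : X) ∈ K') (y : K) :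
    ((subEquiv S e K K' h y : ↥(S ⊓ K')) : X) = ((e (y : MF) : S) : X) := rfl

theorem coe_subEquiv_symm (S : Submodule 𝒪 X) (e : MF ≃ₗ[𝒪] S) (K : Submodule 𝒪 MF)
    (K' : Submodule 𝒪 X) (h : ∀ y : MF, y ∈ K ↔ ((e y : S) : X) ∈ K') (x : ↥(S ⊓ K')) :
    (((subEquiv S e K K' h).symm x : K) : MF) = e.symm ⟨(x : X), x.2.1⟩ := rfl

end SubEquiv

/-! ### the membership criterion from a commutative square -/

section Square

variable {MF P HF H X Y : Type*} [AddCommGroup MF] [AddCommGroup P] [AddCommGroup HF]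
  [AddCommGroup H] [AddCommGroup X] [AddCommGroup Y]

/-- **the kernel criterion**: `ιF : MF → HF`, `ι : P → H` (inclusions of the `Hom`-model primary
parts), `τF : X → HF`, `τ : Y → H` (the comparison maps, `τ` injective), `c : HF → H`
(`cores`), `f : MF → P` with `ι ∘ f = c ∘ ιF`, `β : X → Y` with `τ ∘ β = c ∘ τF`, and
`x : X` with `τF x = ιF y`.  Then `f y = 0 ↔ β x = 0`. -/
theorem eq_zero_iff_of_square (ιF : MF → HF) (ι : P →+ H) (hι : Injective ι) (τF : X → HF)
    (τ : Y →+ H) (hτ : Injective τ) (c : HF → H) (f : MF → P) (hf : ∀ y, ι (f y) = c (ιF y))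
    (β : X → Y) (hβ : ∀ x, τ (β x) = c (τF x)) (y : MF) (x : X) (hxy : τF x = ιF y) :
    f y = 0 ↔ β x = 0 := by
  have h : ι (f y) = τ (β x) := by rw [hf, hβ, hxy]
  constructor
  · intro h0
    apply hτ
    rw [← h, h0, map_zero, map_zero]
  · intro h0
    apply hι
    rw [h, h0, map_zero, map_zero]

end Square

/-! ### the kernel of a pair of maps -/

section KerEquiv

variable {𝒪 : Type*} [CommRing 𝒪]
  {MF X P Y : Type*} [AddCommGroup MF] [Module 𝒪 MF] [AddCommGroup X] [Module 𝒪 X]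
  [AddCommGroup P] [Module 𝒪 P] [AddCommGroup Y] [Module 𝒪 Y]

theorem mem_ker_prod {f₁ f₂ : MF →ₗ[𝒪] P} {y : MF} :
    y ∈ LinearMap.ker (f₁.prod f₂) ↔ f₁ y = 0 ∧ f₂ y = 0 := by
  rw [LinearMap.mem_ker]
  show (f₁ y, f₂ y) = 0 ↔ _
  rw [Prod.mk_eq_zero]

/-- **the `p`-new kernels correspond**: `e : MF ≃ₗ S ≤ X`, `f₁ f₂ : MF → P`, `β₁ β₂ : X → Y` with
`f_i y = 0 ↔ β_i (e y) = 0` give `ker (f₁.prod f₂) ≃ₗ ↥(S ⊓ (ker β₁ ⊓ ker β₂))`. -/
noncomputable def kerEquiv (S : Submodule 𝒪 X) (e : MF ≃ₗ[𝒪] S) (f₁ f₂ : MF →ₗ[𝒪] P)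
    (β₁ β₂ : X →ₗ[𝒪] Y) (h₁ : ∀ y : MF, f₁ y = 0 ↔ β₁ ((e y : S) : X) = 0)
    (h₂ : ∀ y : MF, f₂ y = 0 ↔ β₂ ((e y : S) : X) = 0) :
    LinearMap.ker (f₁.prod f₂) ≃ₗ[𝒪] ↥(S ⊓ (LinearMap.ker β₁ ⊓ LinearMap.ker β₂)) :=
  subEquiv S e (LinearMap.ker (f₁.prod f₂)) (LinearMap.ker β₁ ⊓ LinearMap.ker β₂) fun y => by
    rw [mem_ker_prod, Submodule.mem_inf, LinearMap.mem_ker, LinearMap.mem_ker, h₁ y, h₂ y]

@[simp] theorem coe_kerEquiv (S : Submodule 𝒪 X) (e : MF ≃ₗ[𝒪] S) (f₁ f₂ : MF →ₗ[𝒪] P)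
    (β₁ β₂ : X →ₗ[𝒪] Y) (h₁ : ∀ y : MF, f₁ y = 0 ↔ β₁ ((e y : S) : X) = 0)
    (h₂ : ∀ y : MF, f₂ y = 0 ↔ β₂ ((e y : S) : X) = 0) (y : LinearMap.ker (f₁.prod f₂)) :
    ((kerEquiv S e f₁ f₂ β₁ β₂ h₁ h₂ y : ↥(S ⊓ (LinearMap.ker β₁ ⊓ LinearMap.ker β₂))) : X)
      = ((e (y : MF) : S) : X) := rfl

/-- **equivariance is inherited**: if `A` on `MF` (preserving the kernel) and `A'` on `X` are
intertwined by `e`, they are intertwined by `kerEquiv`. -/
theorem kerEquiv_comm (S : Submodule 𝒪 X) (e : MF ≃ₗ[𝒪] S) (f₁ f₂ : MF →ₗ[𝒪] P)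
    (β₁ β₂ : X →ₗ[𝒪] Y) (h₁ : ∀ y : MF, f₁ y = 0 ↔ β₁ ((e y : S) : X) = 0)
    (h₂ : ∀ y : MF, f₂ y = 0 ↔ β₂ ((e y : S) : X) = 0)
    (A : MF → MF) (A' : X → X) (hA : ∀ y : MF, ((e (A y) : S) : X) = A' ((e y : S) : X))
    (y z : LinearMap.ker (f₁.prod f₂)) (hz : (z : MF) = A (y : MF)) :
    ((kerEquiv S e f₁ f₂ β₁ β₂ h₁ h₂ z : ↥(S ⊓ (LinearMap.ker β₁ ⊓ LinearMap.ker β₂))) : X)
      = A' ((kerEquiv S e f₁ f₂ β₁ β₂ h₁ h₂ y :
          ↥(S ⊓ (LinearMap.ker β₁ ⊓ LinearMap.ker β₂))) : X) := by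
  rw [coe_kerEquiv, coe_kerEquiv, hz, hA]

end KerEquiv

/-! ### transport of a module structure along an `𝒪`-linear equivalence -/

section Transport

variable {𝒪 : Type*} [CommRing 𝒪] {T : Type*} [CommRing T] [Algebra 𝒪 T]
  {K L : Type*} [AddCommGroup K] [Module 𝒪 K] [AddCommGroup L] [Module 𝒪 L] [Module T L]
  [IsScalarTower 𝒪 T L]

/-- the transported action `t ↦ e⁻¹ ∘ (t • ·) ∘ e`. -/
noncomputable def transportHom (e : K ≃ₗ[𝒪] L) : T →+* Module.End 𝒪 K where
  toFun t := e.symm.toLinearMap ∘ₗ (Algebra.lsmul 𝒪 𝒪 L t) ∘ₗ e.toLinearMap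
  map_one' := by
    refine LinearMap.ext fun y => ?_
    show e.symm ((1 : T) • e y) = y
    rw [one_smul, e.symm_apply_apply]
  map_mul' s t := by
    refine LinearMap.ext fun y => ?_
    show e.symm ((s * t) • e y) = e.symm (s • e (e.symm (t • e y)))
    rw [e.apply_symm_apply, mul_smul]
  map_zero' := by
    refine LinearMap.ext fun y => ?_
    show e.symm ((0 : T) • e y) = 0
    rw [zero_smul, map_zero]
  map_add' s t := by
    refine LinearMap.ext fun y => ?_
    show e.symm ((s + t) • e y) = e.symm (s • e y) + e.symm (t • e y)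
    rw [add_smul, map_add]

theorem transportHom_apply (e : K ≃ₗ[𝒪] L) (t : T) (y : K) :
    transportHom (T := T) e t y = e.symm (t • e y) := rfl

/-- **the transported `T`-module structure** on `K` (use with `letI`). -/
@[reducible] noncomputable def transportModule (e : K ≃ₗ[𝒪] L) : Module T K :=
  Module.compHom K (transportHom (T := T) e)

theorem transport_smul (e : K ≃ₗ[𝒪] L) (t : T) (y : K) :
    (letI := transportModule (T := T) e; t • y) = e.symm (t • e y) := rfl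

theorem apply_transport_smul (e : K ≃ₗ[𝒪] L) (t : T) (y : K) :
    e (letI := transportModule (T := T) e; t • y) = t • e y := by
  rw [transport_smul, e.apply_symm_apply]

theorem transport_isScalarTower (e : K ≃ₗ[𝒪] L) :
    letI := transportModule (T := T) e
    IsScalarTower 𝒪 T K := by
  letI := transportModule (T := T) e
  refine ⟨fun c t y => ?_⟩
  show e.symm ((c • t) • e y) = c • e.symm (t • e y)
  rw [smul_assoc, map_smul]

/-- `e` is linear for the transported structure. -/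
noncomputable def transportEquiv (e : K ≃ₗ[𝒪] L) :
    letI := transportModule (T := T) e
    K ≃ₗ[T] L :=
  letI := transportModule (T := T) e
  { e.toAddEquiv with
    map_smul' := fun t y => apply_transport_smul e t y }

theorem transportEquiv_apply (e : K ≃ₗ[𝒪] L) (y : K) :
    (letI := transportModule (T := T) e; transportEquiv (T := T) e y) = e y := rfl

/-- **faithfulness is transported.** -/
theorem transport_faithful (e : K ≃ₗ[𝒪] L) (hL : ∀ u : T, (∀ z : L, u • z = 0) → u = 0) :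
    letI := transportModule (T := T) e
    ∀ u : T, (∀ y : K, u • y = 0) → u = 0 := by
  letI := transportModule (T := T) e
  intro u hu
  refine hL u fun z => ?_
  have h := hu (e.symm z)
  have h' : e.symm (u • e (e.symm z)) = 0 := h
  rw [e.apply_symm_apply] at h'
  exact (e.symm.map_eq_zero_iff).1 h'

/-- **the Hecke operators**: if `e (A y) = t • e y` for all `y`, then `t` acts on `K` (transported
structure) as `A`. -/
theorem transport_smul_eq_of_comm (e : K ≃ₗ[𝒪] L) (t : T) (A : K → K)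
    (h : ∀ y : K, e (A y) = t • e y) (y : K) :
    (letI := transportModule (T := T) e; t • y) = A y := by
  rw [transport_smul, ← h, e.symm_apply_apply]

end Transport

end Fermat.Agent.GE8.RaiseP.BaseKer.Abs
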